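import Fermat.Agent.HeckeJ0.Periods
import Fermat.Agent.EichlerShimura.StarHecke
import Fermat.Agent.EichlerShimura.Facts
import Mathlib.LinearAlgebra.Trace

/-!
# The involution `γ ↦ J γ J` on the lattice of good homomorphisms

Its matrix commutes with the Hecke matrices, and its product with every polynomial in the Hecke
matrices has trace zero.
-/

set_option autoImplicit false

noncomputable section

open CongruenceSubgroup ModularCurve ModularCurve.Period
open scoped MatrixGroups ComplexConjugate Matrix

namespace Fermat.Agent.Mazur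

open HeckeJ0

variable {N : ℕ} [NeZero N]

omit [NeZero N] in
theorem isGoodHom_charInvolution {A : Type*} [AddCommGroup A] {ψ : Additive (Gamma0 N) →+ A}
    (hψ : IsGoodHom N ψ) : IsGoodHom N (charInvolution N ℤ A ψ) := by
  intro g hg
  rw [charInvolution_apply]
  refine hψ _ ?_
  show (((jConjGamma0 N g : Gamma0 N) : SL(2, ℤ)) : Matrix (Fin 2) (Fin 2) ℤ).trace ^ 2 ≤ 4
  rw [jConjGamma0_coe, jConjSL_coe, jConjMat_trace]
  exact hg

variable (N) in
/-- The matrix of `ψ ↦ ψ(J · J)`. -/
def starMat : Matrix (Fin (rk N)) (Fin (rk N)) ℤ :=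
  fun i k => coords N (charInvolution N ℤ ℤ (ofCoords N (Pi.single k (1 : ℤ)))) i

theorem coords_charInvolution_ofCoords {R : Type*} [CommRing R] (a : Fin (rk N) → R) :
    coords N (charInvolution N ℤ R (ofCoords N a)) = (starMat N).map (Int.cast : ℤ → R) *ᵥ a := by
  funext i
  simp only [starMat, coords_apply, charInvolution_apply, ofCoords_eq_sum N a, Matrix.mulVec,
    dotProduct, Matrix.map_apply]

theorem starMat_mul_self : starMat N * starMat N = 1 := by
  refine Matrix.ext_of_mulVec_single fun k => ?_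
  have key : ∀ a : Fin (rk N) → ℤ,
      starMat N *ᵥ a = coords N (charInvolution N ℤ ℤ (ofCoords N a)) := fun a => by
    rw [coords_charInvolution_ofCoords]
    rfl
  rw [Matrix.one_mulVec, ← Matrix.mulVec_mulVec, key (Pi.single k 1), key,
    ofCoords_coords_int N (isGoodHom_charInvolution (isGoodHom_ofCoords N _)),
    charInvolution_charInvolution, coords_ofCoords]

omit [NeZero N] in
theorem map_intCast_mul {R : Type*} [CommRing R] {n : ℕ} (P Q : Matrix (Fin n) (Fin n) ℤ) :
    (P * Q).map (Int.cast : ℤ → R) = P.map (Int.cast : ℤ → R) * Q.map (Int.cast : ℤ → R) :=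
  Matrix.map_mul (f := Int.castRingHom R)

theorem starMat_map_mul_self {R : Type*} [CommRing R] :
    (starMat N).map (Int.cast : ℤ → R) * (starMat N).map (Int.cast : ℤ → R) = 1 := by
  rw [← map_intCast_mul, starMat_mul_self, Matrix.map_one _ Int.cast_zero Int.cast_one]

/-- The periods of `starForm f`. -/
theorem perMap_starForm (f : CuspForm (Gamma0 N) 2) (i : Fin (rk N)) :
    perMap N (EichlerShimura.starForm f) i =
      -conj (((starMat N).map (Int.cast : ℤ → ℂ) *ᵥ perMap N f) i) := by
  show periodMap N (EichlerShimura.starForm f) (Additive.ofMul (cyc N i)) = _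
  rw [(EichlerShimura.periodFacts N).periodMap_starForm, ← coords_charInvolution_ofCoords,
    show ofCoords N (perMap N f) = periodMap N f from
      ofCoords_coords_complex N (isGoodHom_periodMap N f), coords_apply, charInvolution_apply]
  rfl

/-- A linear map on forms commuting with `starForm` and given by an integral matrix on periods
commutes with the involution on periods. -/
theorem mulVec_star_perMap {P : Matrix (Fin (rk N)) (Fin (rk N)) ℤ}
    {p : CuspForm (Gamma0 N) 2 → CuspForm (Gamma0 N) 2}
    (hp : ∀ f, perMap N (p f) = P.map (Int.cast : ℤ → ℂ) *ᵥ perMap N f)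
    (hs : ∀ f, EichlerShimura.starForm (p f) = p (EichlerShimura.starForm f))
    (f : CuspForm (Gamma0 N) 2) :
    P.map (Int.cast : ℤ → ℂ) *ᵥ ((starMat N).map (Int.cast : ℤ → ℂ) *ᵥ perMap N f) =
      (starMat N).map (Int.cast : ℤ → ℂ) *ᵥ perMap N (p f) := by
  have h : ∀ g, (starMat N).map (Int.cast : ℤ → ℂ) *ᵥ perMap N g =
      -fun i => conj (perMap N (EichlerShimura.starForm g) i) := fun g => funext fun i => by
    rw [Pi.neg_apply, perMap_starForm, map_neg, Complex.conj_conj, neg_neg]
  rw [h, h, hs, hp, Matrix.mulVec_neg]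
  congr 1
  funext i
  simp [Matrix.mulVec, dotProduct, map_sum]

variable (N) in
/-- `(f, g) ↦ per f + (per g)(J · J)`. -/
def perPair : CuspForm (Gamma0 N) 2 × CuspForm (Gamma0 N) 2 →ₗ[ℂ] (Fin (rk N) → ℂ) :=
  (perMap N).coprod (((starMat N).map (Int.cast : ℤ → ℂ)).mulVecLin ∘ₗ perMap N)

theorem perPair_apply (f g : CuspForm (Gamma0 N) 2) :
    perPair N (f, g) = perMap N f + (starMat N).map (Int.cast : ℤ → ℂ) *ᵥ perMap N g := rfl

theorem star_perPair (f g : CuspForm (Gamma0 N) 2) :
    (starMat N).map (Int.cast : ℤ → ℂ) *ᵥ perPair N (f, g) = perPair N (g, f) := by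
  rw [perPair_apply, perPair_apply, Matrix.mulVec_add, Matrix.mulVec_mulVec,
    starMat_map_mul_self, Matrix.one_mulVec, add_comm]

theorem perPair_injective : Function.Injective (perPair N) := by
  refine (injective_iff_map_eq_zero _).mpr ?_
  rintro ⟨u, v⟩ h
  set f := (2 : ℂ)⁻¹ • (u + v) with hf
  set g := (2 : ℂ)⁻¹ • (u - v) with hg
  have hu : f + g = u := by
    rw [hf, hg, ← smul_add, add_add_sub_cancel, ← two_smul ℂ u, smul_smul,
      inv_mul_cancel₀ two_ne_zero, one_smul]
  have hv : f - g = v := by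
    rw [hf, hg, ← smul_sub, add_sub_sub_cancel, ← two_smul ℂ v, smul_smul,
      inv_mul_cancel₀ two_ne_zero, one_smul]
  have hP := EichlerShimura.periodFacts N
  have hgu : IsGoodHom N (periodMap N u) := isGoodHom_periodMap N u
  have hgv : IsGoodHom N (periodMap N v) := isGoodHom_periodMap N v
  have h' : periodMap N u + charInvolution N ℤ ℂ (periodMap N v) = 0 := by
    have hgood : IsGoodHom N (periodMap N u + charInvolution N ℤ ℂ (periodMap N v)) :=
      fun γ hγ => by
        rw [AddMonoidHom.add_apply, hgu γ hγ, isGoodHom_charInvolution hgv γ hγ, add_zero]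
    rw [← ofCoords_coords_complex N hgood, map_add]
    have e : coords N (charInvolution N ℤ ℂ (periodMap N v)) =
        (starMat N).map (Int.cast : ℤ → ℂ) *ᵥ perMap N v := by
      rw [← coords_charInvolution_ofCoords]
      exact congrArg (fun ψ => coords N (charInvolution N ℤ ℂ ψ))
        (ofCoords_coords_complex N hgv).symm
    rw [e, show coords N (periodMap N u) = perMap N u from rfl, ← perPair_apply, h]
    exact AddMonoidHom.ext fun γ => by simp [ofCoords_apply]
  have h0 : periodHomPair N (f, g) = 0 := by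
    have key : ∀ δ : Gamma0 N, periodHomPair N (f, g) (Additive.ofMul δ) = 0 := fun δ => by
      rw [hP.periodHomPair_apply, hu, hv]
      exact DFunLike.congr_fun h' (Additive.ofMul δ)
    exact AddMonoidHom.ext fun γ => key (Additive.toMul γ)
  have h1 := hP.periodHomPair_injective (h0.trans (map_zero (periodHomPair N)).symm)
  rw [Prod.mk_eq_zero] at h1
  rw [Prod.mk_eq_zero, ← hu, ← hv, h1.1, h1.2]
  simp

/-- Periods and their transforms span, when the lattice has rank twice the dimension. -/
theorem perPair_surjective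
    (hrank : rk N ≤ 2 * Module.finrank ℂ (CuspForm (Gamma0 N) 2)) :
    Function.Surjective (perPair N) := by
  have := (EichlerShimura.periodFacts N).finiteDimensional_cuspForm
  have h := LinearMap.finrank_le_finrank_of_injective (perPair_injective (N := N))
  rw [Module.finrank_prod, Module.finrank_fin_fun] at h
  refine (LinearMap.injective_iff_surjective_of_finrank_eq_finrank ?_).mp perPair_injective
  rw [Module.finrank_prod, Module.finrank_fin_fun]
  omega

/-- The rank condition from `dim P = 2g` and `g ≤ dim S₂`. -/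
theorem rk_le_two_mul_finrank (hP : J0Torsion.ParabolicFull N)
    (hg : genusFormula N ≤ (Module.finrank ℂ (CuspForm (Gamma0 N) 2) : ℚ)) :
    rk N ≤ 2 * Module.finrank ℂ (CuspForm (Gamma0 N) 2) := by
  have h := J0Torsion.rank_eq_genus hP
  have : ((rk N : ℕ) : ℚ) ≤ ((2 * Module.finrank ℂ (CuspForm (Gamma0 N) 2) : ℕ) : ℚ) := by
    push_cast
    show (J0Torsion.rank N : ℚ) ≤ _
    linarith
  exact_mod_cast this

variable (N) in
/-- The algebra generated by the Hecke matrices. -/
def matHecke : Subalgebra ℤ (Matrix (Fin (rk N)) (Fin (rk N)) ℤ) :=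
  Algebra.adjoin ℤ (Set.range (heckeMatAt N))

theorem exists_formsEnd {P : Matrix (Fin (rk N)) (Fin (rk N)) ℤ} (hP : P ∈ matHecke N) :
    ∃ p : Module.End ℂ (CuspForm (Gamma0 N) 2),
      (∀ f, perMap N (p f) = P.map (Int.cast : ℤ → ℂ) *ᵥ perMap N f) ∧
      ∀ f, EichlerShimura.starForm (p f) = p (EichlerShimura.starForm f) := by
  induction hP using Algebra.adjoin_induction with
  | mem P hP =>
    obtain ⟨ℓ, rfl⟩ := hP
    refine ⟨EigenRep.formsOp N ℓ, fun f => perMap_formsOp N ℓ f, fun f => ?_⟩
    unfold EigenRep.formsOp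
    split_ifs with h
    · exact EichlerShimura.starForm_heckeULin ℓ.2 h f
    · exact EichlerShimura.starForm_heckeTLin ℓ.2 h f
  | algebraMap r =>
    refine ⟨(r : ℂ) • LinearMap.id, fun f => ?_, fun f => ?_⟩
    · rw [LinearMap.smul_apply, LinearMap.id_apply, map_smul,
        show (algebraMap ℤ (Matrix (Fin (rk N)) (Fin (rk N)) ℤ) r).map (Int.cast : ℤ → ℂ) =
          (r : ℂ) • 1 from by
        ext i j
        rw [Matrix.map_apply, Matrix.algebraMap_matrix_apply, Matrix.smul_apply]
        rcases eq_or_ne i j with h | h <;> simp [h, Matrix.one_apply],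
        Matrix.smul_mulVec, Matrix.one_mulVec]
    · simp [EichlerShimura.starForm_smul]
  | add P Q _ _ hp hq =>
    obtain ⟨p, hp1, hp2⟩ := hp
    obtain ⟨q, hq1, hq2⟩ := hq
    refine ⟨p + q, fun f => ?_, fun f => ?_⟩
    · rw [LinearMap.add_apply, map_add, hp1, hq1, Matrix.map_add _ (fun a b => Int.cast_add a b),
        Matrix.add_mulVec]
    · rw [LinearMap.add_apply, EichlerShimura.starForm_add, hp2, hq2, LinearMap.add_apply]
  | mul P Q _ _ hp hq =>
    obtain ⟨p, hp1, hp2⟩ := hp
    obtain ⟨q, hq1, hq2⟩ := hq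
    refine ⟨p * q, fun f => ?_, fun f => ?_⟩
    · rw [Module.End.mul_apply, hp1, hq1, Matrix.mulVec_mulVec, map_intCast_mul]
    · rw [Module.End.mul_apply, hp2, hq2, Module.End.mul_apply]

variable (hrank : rk N ≤ 2 * Module.finrank ℂ (CuspForm (Gamma0 N) 2))

theorem map_perPair {P : Matrix (Fin (rk N)) (Fin (rk N)) ℤ}
    {p : Module.End ℂ (CuspForm (Gamma0 N) 2)}
    (hp : ∀ f, perMap N (p f) = P.map (Int.cast : ℤ → ℂ) *ᵥ perMap N f)
    (hs : ∀ f, EichlerShimura.starForm (p f) = p (EichlerShimura.starForm f))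
    (f g : CuspForm (Gamma0 N) 2) :
    P.map (Int.cast : ℤ → ℂ) *ᵥ perPair N (f, g) = perPair N (p f, p g) := by
  rw [perPair_apply, perPair_apply, Matrix.mulVec_add, mulVec_star_perMap hp hs, hp f]

include hrank in
theorem starMat_commute {P : Matrix (Fin (rk N)) (Fin (rk N)) ℤ} (hP : P ∈ matHecke N) :
    starMat N * P = P * starMat N := by
  obtain ⟨p, hp, hs⟩ := exists_formsEnd hP
  refine Matrix.map_injective (f := (Int.castRingHom ℂ)) Int.cast_injective ?_
  show (starMat N * P).map (Int.cast : ℤ → ℂ) = (P * starMat N).map (Int.cast : ℤ → ℂ)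
  rw [map_intCast_mul, map_intCast_mul]
  refine Matrix.ext_of_mulVec_single fun i => ?_
  obtain ⟨⟨f, g⟩, hfg⟩ := perPair_surjective hrank (Pi.single i 1)
  rw [← hfg, ← Matrix.mulVec_mulVec, ← Matrix.mulVec_mulVec, map_perPair hp hs, star_perPair,
    star_perPair, map_perPair hp hs]

end Fermat.Agent.Mazur
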