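import Mathlib

/-!
# Counting fixed vectors of idempotent matrices over `ℤ/eᵏ`
-/

set_option autoImplicit false

noncomputable section

open Polynomial

namespace Fermat.Agent.Mazur

/-- The multiplicity of `1` as a root of the characteristic polynomial modulo `e`. -/
def oneMult (e : ℕ) [Fact e.Prime] (χ : ℤ[X]) : ℕ :=
  rootMultiplicity 1 (χ.map (Int.castRingHom (ZMod e)))

theorem oneMult_mul_self (e : ℕ) [Fact e.Prime] {χ : ℤ[X]} (hχ : χ.Monic) :
    oneMult e (χ * χ) = oneMult e χ + oneMult e χ := by
  have h := (hχ.map (Int.castRingHom (ZMod e))).ne_zero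
  rw [oneMult, Polynomial.map_mul, rootMultiplicity_mul (mul_ne_zero h h)]
  rfl

/-- An idempotent matrix over a local ring splits the free module into two free pieces. -/
theorem charpoly_idempotent {R : Type*} [CommRing R] [IsLocalRing R] {ι : Type*} [Fintype ι]
    [DecidableEq ι] (E : Matrix ι ι R) (hidem : E * E = E) :
    ∃ r s : ℕ, E.charpoly = (X - 1) ^ r * X ^ s ∧
      Nat.card {v : ι → R // E.mulVec v = v} = Nat.card R ^ r := by
  obtain ⟨f, hf⟩ : ∃ f : (ι → R) →ₗ[R] (ι → R), f = Matrix.toLin' E := ⟨_, rfl⟩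
  have hfv : ∀ v, f v = E.mulVec v := fun v => by rw [hf, Matrix.toLin'_apply]
  have hff : ∀ v, f (f v) = f v := fun v => by
    rw [hfv, hfv, Matrix.mulVec_mulVec, hidem]
  have hc : IsCompl (LinearMap.range f) (LinearMap.ker f) := by
    constructor
    · rw [Submodule.disjoint_def]
      rintro _ ⟨v, rfl⟩ hx
      rw [LinearMap.mem_ker, hff] at hx
      exact hx
    · rw [codisjoint_iff, eq_top_iff]
      intro v _
      rw [Submodule.mem_sup]
      exact ⟨f v, ⟨v, rfl⟩, v - f v, by rw [LinearMap.mem_ker, map_sub, hff, sub_self],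
        by abel⟩
  have : Module.Projective R (LinearMap.range f) :=
    Module.Projective.of_split (LinearMap.range f).subtype
      ((LinearMap.range f).projectionOnto _ hc)
      (LinearMap.ext fun x => Submodule.projectionOnto_apply_left hc x)
  have : Module.Projective R (LinearMap.ker f) :=
    Module.Projective.of_split (LinearMap.ker f).subtype
      ((LinearMap.ker f).projectionOnto _ hc.symm)
      (LinearMap.ext fun x => Submodule.projectionOnto_apply_left hc.symm x)
  have : Module.Finite R (LinearMap.ker f) :=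
    Module.Finite.of_surjective ((LinearMap.ker f).projectionOnto _ hc.symm)
      fun x => ⟨x, Submodule.projectionOnto_apply_left hc.symm x⟩
  have : Module.Free R (LinearMap.range f) := Module.free_of_flat_of_isLocalRing
  have : Module.Free R (LinearMap.ker f) := Module.free_of_flat_of_isLocalRing
  have hconj : f = (Submodule.prodEquivOfIsCompl _ _ hc).conj
      (LinearMap.prodMap (LinearMap.id : LinearMap.range f →ₗ[R] LinearMap.range f) 0) := by
    refine LinearMap.ext fun v => ?_
    obtain ⟨⟨⟨a, a', rfl⟩, ⟨b, hb⟩⟩, rfl⟩ :=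
      (Submodule.prodEquivOfIsCompl _ _ hc).surjective v
    rw [LinearEquiv.conj_apply_apply, LinearEquiv.symm_apply_apply]
    simp only [LinearMap.prodMap_apply, LinearMap.id_apply, LinearMap.zero_apply,
      Submodule.coe_prodEquivOfIsCompl', ZeroMemClass.coe_zero, add_zero]
    rw [map_add, hff, LinearMap.mem_ker.mp hb, add_zero]
  refine ⟨Module.finrank R (LinearMap.range f), Module.finrank R (LinearMap.ker f), ?_, ?_⟩
  · rw [← Matrix.charpoly_toLin' E, ← hf]
    conv_lhs => rw [hconj]
    rw [LinearEquiv.charpoly_conj, LinearMap.charpoly_prodMap, ← Module.End.one_eq_id,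
      LinearMap.charpoly_one, LinearMap.charpoly_zero]
  · have hequiv : {v : ι → R // E.mulVec v = v} ≃ LinearMap.range f :=
      Equiv.subtypeEquivRight fun v => by
        constructor
        · exact fun h => ⟨v, by rw [hfv, h]⟩
        · rintro ⟨w, rfl⟩
          rw [← hfv, hff]
    rw [Nat.card_congr hequiv,
      Nat.card_congr (Module.finBasis R (LinearMap.range f)).equivFun.toEquiv, Nat.card_fun,
      Nat.card_fin]

/-- The fixed vectors of an idempotent matrix over `ℤ/eᵏ` number `e^(k·m)`, `m` the multiplicity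
of the eigenvalue `1` modulo `e`. -/
theorem card_fixed_idempotent {e k : ℕ} [Fact e.Prime] (hk : k ≠ 0) {ι : Type*} [Fintype ι]
    [DecidableEq ι] (P : Matrix ι ι ℤ) (E : Matrix ι ι (ZMod (e ^ k)))
    (hE : E = P.map (Int.cast : ℤ → ZMod (e ^ k))) (hidem : E * E = E) :
    Nat.card {v : ι → ZMod (e ^ k) // E.mulVec v = v} = (e ^ k) ^ oneMult e P.charpoly := by
  have he : e.Prime := Fact.out
  have : Fact (1 < e ^ k) := ⟨Nat.one_lt_pow hk he.one_lt⟩
  have : IsLocalRing (ZMod (e ^ k)) := by
    refine IsLocalRing.of_nonunits_add fun a b ha hb => ?_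
    have key : ∀ x : ZMod (e ^ k), x ∈ nonunits (ZMod (e ^ k)) ↔ e ∣ x.val := fun x => by
      rw [mem_nonunits_iff]
      conv_lhs => rw [← ZMod.natCast_zmod_val x]
      rw [ZMod.isUnit_iff_coprime, Nat.coprime_pow_right_iff (Nat.pos_of_ne_zero hk),
        Nat.coprime_comm, he.coprime_iff_not_dvd, not_not]
    rw [key] at ha hb ⊢
    rw [ZMod.val_add]
    exact (Nat.dvd_mod_iff (dvd_pow_self e hk)).mpr (dvd_add ha hb)
  obtain ⟨r, s, hchar, hcard⟩ := charpoly_idempotent E hidem
  have h := congrArg (Polynomial.map (ZMod.castHom (dvd_pow_self e hk) (ZMod e))) hchar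
  rw [hE, show P.map (Int.cast : ℤ → ZMod (e ^ k)) =
      P.map (Int.castRingHom (ZMod (e ^ k))) from rfl, Matrix.charpoly_map, Polynomial.map_map,
    RingHom.eq_intCast' ((ZMod.castHom (dvd_pow_self e hk) (ZMod e)).comp
      (Int.castRingHom (ZMod (e ^ k)))),
    Polynomial.map_mul, Polynomial.map_pow, Polynomial.map_pow, Polynomial.map_sub,
    Polynomial.map_X, Polynomial.map_one] at h
  rw [hcard, Nat.card_zmod, oneMult, h, rootMultiplicity_mul (mul_ne_zero
    (pow_ne_zero _ (by rw [← map_one Polynomial.C]; exact X_sub_C_ne_zero 1))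
    (pow_ne_zero _ X_ne_zero)), ← map_one Polynomial.C, rootMultiplicity_X_sub_C_pow,
    rootMultiplicity_eq_zero (by simp [IsRoot]), add_zero]

end Fermat.Agent.Mazur
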