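import Fermat.Agent.Mazur.Conj.StarMat
import Fermat.Agent.Mazur.Conj.IdemCount

/-!
# The anti-fixed sublattice of `γ ↦ J γ J` and the balance of idempotent Hecke pieces

The kernel `K` of `S + 1` on the lattice carries the Hecke operators with the characteristic
polynomial of weight two cusp forms, and the whole lattice with its square.
-/

set_option autoImplicit false

noncomputable section

open CongruenceSubgroup ModularCurve ModularCurve.Period
open scoped MatrixGroups ComplexConjugate Matrix Polynomial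

namespace Fermat.Agent.Mazur

open HeckeJ0

variable {N : ℕ} [NeZero N]

/-- A basis of the integral vectors with `S v = -v`, as the columns of a matrix. -/
theorem exists_antiBasis :
    ∃ (n : ℕ) (V : Matrix (Fin (rk N)) (Fin n) ℤ), starMat N * V = -V ∧
      Function.Injective V.mulVec ∧
      ∀ v, starMat N *ᵥ v = -v → ∃ w, V *ᵥ w = v := by
  let K := LinearMap.ker ((starMat N + 1).mulVecLin)
  obtain ⟨n, b⟩ := Submodule.basisOfPid (Pi.basisFun ℤ (Fin (rk N))) K
  have hK : ∀ v, v ∈ K ↔ starMat N *ᵥ v = -v := fun v => by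
    rw [LinearMap.mem_ker, Matrix.mulVecLin_apply, Matrix.add_mulVec, Matrix.one_mulVec,
      add_eq_zero_iff_eq_neg]
  refine ⟨n, Matrix.of fun i j => (b j : Fin (rk N) → ℤ) i, ?_⟩
  have hV : ∀ w, (Matrix.of fun i j => (b j : Fin (rk N) → ℤ) i) *ᵥ w =
      ((b.equivFun.symm w : K) : Fin (rk N) → ℤ) := fun w => by
    funext i
    simp [Module.Basis.equivFun_symm_apply, Matrix.mulVec, dotProduct, Finset.sum_apply, mul_comm]
  refine ⟨Matrix.ext_of_mulVec_single fun j => ?_, fun w w' h => ?_, fun v hv => ?_⟩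
  · rw [← Matrix.mulVec_mulVec, Matrix.neg_mulVec, hV, (hK _).mp (Submodule.coe_mem _)]
  · rw [hV, hV] at h
    exact b.equivFun.symm.injective (Subtype.ext h)
  · exact ⟨b.equivFun ⟨v, (hK v).mpr hv⟩, by rw [hV, LinearEquiv.symm_apply_apply]⟩

/-- An integral matrix injective on integral vectors is injective on complex ones. -/
theorem mulVec_injective_complex {r n : ℕ} {V : Matrix (Fin r) (Fin n) ℤ}
    (hV : Function.Injective V.mulVec) :
    Function.Injective (V.map (Int.cast : ℤ → ℂ)).mulVecLin := by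
  have hdet : (Vᵀ * V).det ≠ 0 := by
    intro h
    obtain ⟨w, hw, hw'⟩ := Matrix.exists_mulVec_eq_zero_iff.mpr h
    refine hw (hV ?_)
    show V *ᵥ w = V *ᵥ 0
    rw [Matrix.mulVec_zero]
    refine dotProduct_self_eq_zero.mp ?_
    rw [← dotProduct_zero w, ← hw', ← Matrix.mulVec_mulVec, Matrix.dotProduct_mulVec w,
      Matrix.vecMul_transpose]
  refine (injective_iff_map_eq_zero _).mpr fun w hw => ?_
  by_contra hne
  refine hdet ?_
  have h0 : ((Vᵀ * V).map (Int.castRingHom ℂ)).det = 0 := by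
    refine Matrix.exists_mulVec_eq_zero_iff.mp ⟨w, hne, ?_⟩
    rw [Matrix.map_mul, ← Matrix.mulVec_mulVec]
    rw [Matrix.mulVecLin_apply] at hw
    show _ *ᵥ (V.map (Int.cast : ℤ → ℂ) *ᵥ w) = 0
    rw [hw, Matrix.mulVec_zero]
  rw [← RingHom.mapMatrix_apply, ← RingHom.map_det] at h0
  exact Int.cast_injective (α := ℂ) (h0.trans Int.cast_zero.symm)

variable (hrank : rk N ≤ 2 * Module.finrank ℂ (CuspForm (Gamma0 N) 2))

include hrank in
/-- A Hecke matrix restricts to the anti-fixed sublattice, and its characteristic polynomial is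
the square of that of the restriction. -/
theorem exists_restrict {n : ℕ} {V : Matrix (Fin (rk N)) (Fin n) ℤ}
    (hSV : starMat N * V = -V) (hVi : Function.Injective V.mulVec)
    (hVs : ∀ v, starMat N *ᵥ v = -v → ∃ w, V *ᵥ w = v)
    {P : Matrix (Fin (rk N)) (Fin (rk N)) ℤ} (hP : P ∈ matHecke N) :
    ∃ Q : Matrix (Fin n) (Fin n) ℤ, P * V = V * Q ∧
      P.charpoly = Q.charpoly * Q.charpoly := by
  have hPV : ∀ j, ∃ w, V *ᵥ w = (P * V) *ᵥ Pi.single j 1 := fun j => hVs _ (by
    rw [Matrix.mulVec_mulVec, ← Matrix.mul_assoc, starMat_commute hrank hP, Matrix.mul_assoc,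
      hSV, Matrix.mul_neg, Matrix.neg_mulVec])
  choose q hq using hPV
  let Q : Matrix (Fin n) (Fin n) ℤ := Matrix.of fun i j => q j i
  have hQ : P * V = V * Q := Matrix.ext_of_mulVec_single fun j => by
    rw [← Matrix.mulVec_mulVec (M := V), ← hq]
    congr 1
    funext i
    simp [Q]
  obtain ⟨p, hp, hs⟩ := exists_formsEnd hP
  have := (EichlerShimura.periodFacts N).finiteDimensional_cuspForm
  set Sc := (starMat N).map (Int.cast : ℤ → ℂ) with hSc
  set Vc := (V.map (Int.cast : ℤ → ℂ)).mulVecLin with hVc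
  have hVci : Function.Injective Vc := mulVec_injective_complex hVi
  let ψ : CuspForm (Gamma0 N) 2 →ₗ[ℂ] (Fin (rk N) → ℂ) :=
    perPair N ∘ₗ LinearMap.id.prod (-LinearMap.id)
  have hψ : ∀ u, ψ u = perPair N (u, -u) := fun u => rfl
  have hψi : Function.Injective ψ := fun u v h => (Prod.ext_iff.mp (perPair_injective h)).1
  have hSψ : ∀ u, Sc *ᵥ ψ u = -ψ u := fun u => by
    rw [hψ, hSc, star_perPair, ← map_neg, Prod.neg_mk, neg_neg]
  -- both maps have the `-1` eigenspace as range
  have hrange : LinearMap.range Vc = LinearMap.range ψ := by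
    refine le_antisymm ?_ ?_
    · rintro _ ⟨w, rfl⟩
      obtain ⟨⟨u, v⟩, huv⟩ := perPair_surjective hrank (Vc w)
      have h : Sc *ᵥ Vc w = -Vc w := by
        rw [hVc, Matrix.mulVecLin_apply, Matrix.mulVec_mulVec, hSc, ← Matrix.neg_mulVec]
        congr 1
        show (starMat N).map (Int.castRingHom ℂ) * V.map (Int.castRingHom ℂ) =
          -(V.map (Int.castRingHom ℂ))
        rw [← Matrix.map_mul, hSV]
        ext i j
        simp
      rw [← huv, hSc, star_perPair, ← map_neg, Prod.neg_mk] at h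
      have hvu : v = -u := (Prod.ext_iff.mp (perPair_injective h)).1
      exact ⟨u, by rw [← huv, hψ, hvu]⟩
    · rintro _ ⟨u, rfl⟩
      have hcol : ∀ i, (Sc - 1) *ᵥ Pi.single i 1 ∈ LinearMap.range Vc := fun i => by
        obtain ⟨w, hw⟩ := hVs ((starMat N - 1) *ᵥ Pi.single i 1) (by
          rw [Matrix.mulVec_mulVec, mul_sub, starMat_mul_self, mul_one, ← Matrix.neg_mulVec,
            neg_sub])
        refine ⟨fun j => (w j : ℂ), ?_⟩
        rw [hVc, Matrix.mulVecLin_apply]
        funext a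
        have h := congrArg (fun x : ℤ => (x : ℂ)) (congrFun hw a)
        simp only [Matrix.mulVec_single_one, Matrix.col_apply, Matrix.sub_apply] at h ⊢
        simpa [Matrix.mulVec, dotProduct, hSc, Matrix.one_apply, apply_ite] using h
      have : ψ u = (-(2 : ℂ)⁻¹) • ((Sc - 1) *ᵥ ψ u) := by
        rw [Matrix.sub_mulVec, Matrix.one_mulVec, hSψ]
        funext a
        simp only [Pi.smul_apply, Pi.sub_apply, Pi.neg_apply, smul_eq_mul]
        ring
      rw [this]
      refine Submodule.smul_mem _ _ ?_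
      rw [show ψ u = ∑ i, ψ u i • (Pi.single i 1 : Fin (rk N) → ℂ) from by
        conv_lhs => rw [pi_eq_sum_univ' (ψ u)]
        , Matrix.mulVec_sum]
      refine Submodule.sum_mem _ fun i _ => ?_
      rw [Matrix.mulVec_smul]
      exact Submodule.smul_mem _ _ (hcol i)
  let φ : (Fin n → ℂ) ≃ₗ[ℂ] CuspForm (Gamma0 N) 2 :=
    ((LinearEquiv.ofInjective Vc hVci).trans (LinearEquiv.ofEq _ _ hrange)).trans
      (LinearEquiv.ofInjective ψ hψi).symm
  have hφ : ∀ w, ψ (φ w) = Vc w := fun w => by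
    have := LinearEquiv.ofInjective_apply ψ (h := hψi) (φ w)
    rw [← this]
    simp [φ]
  have hQp : Matrix.toLin' (Q.map (Int.cast : ℤ → ℂ)) = φ.symm.conj p := by
    refine LinearMap.ext fun w => ?_
    rw [LinearEquiv.conj_apply_apply, LinearEquiv.symm_symm, LinearEquiv.eq_symm_apply]
    refine hψi ?_
    rw [hφ, hψ (p (φ w)), ← map_neg p, ← map_perPair hp hs, ← hψ, hφ, hVc,
      Matrix.mulVecLin_apply, Matrix.mulVecLin_apply, Matrix.toLin'_apply, Matrix.mulVec_mulVec,
      Matrix.mulVec_mulVec]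
    congr 1
    show V.map (Int.castRingHom ℂ) * Q.map (Int.castRingHom ℂ) =
      P.map (Int.castRingHom ℂ) * V.map (Int.castRingHom ℂ)
    rw [← Matrix.map_mul, ← Matrix.map_mul, hQ]
  let ee := LinearEquiv.ofBijective (perPair N) ⟨perPair_injective, perPair_surjective hrank⟩
  have hPp : Matrix.toLin' (P.map (Int.cast : ℤ → ℂ)) = ee.conj (p.prodMap p) := by
    refine LinearMap.ext fun x => ?_
    obtain ⟨⟨f, g⟩, rfl⟩ := ee.surjective x
    rw [LinearEquiv.conj_apply_apply, LinearEquiv.symm_apply_apply, Matrix.toLin'_apply]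
    exact map_perPair hp hs f g
  refine ⟨Q, hQ, Polynomial.map_injective (Int.castRingHom ℂ) Int.cast_injective ?_⟩
  rw [Polynomial.map_mul, ← Matrix.charpoly_map, ← Matrix.charpoly_map]
  show (P.map (Int.cast : ℤ → ℂ)).charpoly =
    (Q.map (Int.cast : ℤ → ℂ)).charpoly * (Q.map (Int.cast : ℤ → ℂ)).charpoly
  rw [← Matrix.charpoly_toLin', ← Matrix.charpoly_toLin', hPp, hQp, LinearEquiv.charpoly_conj,
    LinearEquiv.charpoly_conj, LinearMap.charpoly_prodMap]

include hrank in
/-- On the fixed vectors of an idempotent Hecke matrix modulo `eᵏ`, at least a square root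
satisfies `S v = -v`. -/
theorem card_fixed_le_sq {e k : ℕ} [Fact e.Prime] (hk : k ≠ 0)
    {P : Matrix (Fin (rk N)) (Fin (rk N)) ℤ} (hP : P ∈ matHecke N)
    (E : Matrix (Fin (rk N)) (Fin (rk N)) (ZMod (e ^ k)))
    (hE : E = P.map (Int.cast : ℤ → ZMod (e ^ k))) (hidem : E * E = E) :
    Nat.card {v // E *ᵥ v = v} ≤
      Nat.card {v // E *ᵥ v = v ∧
        (starMat N).map (Int.cast : ℤ → ZMod (e ^ k)) *ᵥ v = -v} ^ 2 := by
  obtain ⟨n, V, hSV, hVi, hVs⟩ := exists_antiBasis (N := N)
  obtain ⟨Q, hQ, hchar⟩ := exists_restrict hrank hSV hVi hVs hP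
  let c : ℤ →+* ZMod (e ^ k) := Int.castRingHom _
  -- `V` stays injective modulo `eᵏ`
  have hinj : Function.Injective (V.map c).mulVec := by
    intro a b h
    obtain ⟨a, rfl⟩ : ∃ x : Fin n → ℤ, (fun i => c (x i)) = a :=
      ⟨fun i => (a i).cast, funext fun i => ZMod.intCast_zmod_cast _⟩
    obtain ⟨b, rfl⟩ : ∃ x : Fin n → ℤ, (fun i => c (x i)) = b :=
      ⟨fun i => (b i).cast, funext fun i => ZMod.intCast_zmod_cast _⟩
    have hdvd : ∀ i, (((e ^ k : ℕ) : ℤ)) ∣ (V *ᵥ (a - b)) i := fun i => by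
      rw [← ZMod.intCast_zmod_eq_zero_iff_dvd]
      show c _ = 0
      rw [Matrix.mulVec_sub, Pi.sub_apply, map_sub, RingHom.map_mulVec, RingHom.map_mulVec,
        sub_eq_zero]
      exact congrFun h i
    choose u hu using hdvd
    have hue : V *ᵥ (a - b) = ((e ^ k : ℕ) : ℤ) • u := funext hu
    have hu' : starMat N *ᵥ u = -u := by
      have he : (((e ^ k : ℕ) : ℤ)) ≠ 0 :=
        Int.natCast_ne_zero.mpr (pow_ne_zero k (Fact.out : e.Prime).ne_zero)
      refine smul_right_injective _ he ?_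
      show _ • _ = _ • _
      rw [← Matrix.mulVec_smul, ← hue, Matrix.mulVec_mulVec, hSV, Matrix.neg_mulVec, hue, smul_neg]
    obtain ⟨w, hw⟩ := hVs u hu'
    have hab : a - b = ((e ^ k : ℕ) : ℤ) • w := hVi (by
      show V *ᵥ _ = V *ᵥ _
      rw [Matrix.mulVec_smul, hw, hue])
    funext i
    have := congrArg c (congrFun hab i)
    have h0 : c ((e ^ k : ℕ) : ℤ) = 0 := by
      show (((e ^ k : ℕ) : ℤ) : ZMod (e ^ k)) = 0
      rw [Int.cast_natCast, ZMod.natCast_self]
    rw [Pi.sub_apply, Pi.smul_apply, smul_eq_mul, map_sub, map_mul, h0, zero_mul,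
      sub_eq_zero] at this
    exact this
  have hEV : E * V.map c = V.map c * Q.map c := by
    rw [hE]
    show P.map c * V.map c = _
    rw [← Matrix.map_mul, ← Matrix.map_mul, hQ]
  have hQidem : Q.map c * Q.map c = Q.map c := by
    refine Matrix.ext_of_mulVec_single fun j => hinj ?_
    rw [Matrix.mulVec_mulVec, Matrix.mulVec_mulVec, ← Matrix.mul_assoc, ← hEV, Matrix.mul_assoc,
      ← hEV, ← Matrix.mul_assoc, hidem]
  have h1 := card_fixed_idempotent hk P E hE hidem
  have h2 := card_fixed_idempotent hk Q (Q.map c) rfl hQidem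
  rw [h1, hchar, oneMult_mul_self e (Matrix.charpoly_monic Q), ← two_mul, mul_comm, pow_mul,
    ← h2]
  have hmem : ∀ w, Q.map c *ᵥ w = w → E *ᵥ (V.map c *ᵥ w) = V.map c *ᵥ w ∧
      (starMat N).map (Int.cast : ℤ → ZMod (e ^ k)) *ᵥ (V.map c *ᵥ w) = -(V.map c *ᵥ w) := by
    refine fun w hw => ⟨?_, ?_⟩
    · rw [Matrix.mulVec_mulVec, hEV, ← Matrix.mulVec_mulVec, hw]
    · rw [Matrix.mulVec_mulVec, ← Matrix.neg_mulVec]
      congr 1
      show (starMat N).map c * V.map c = _
      rw [← Matrix.map_mul, hSV]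
      ext i j
      simp
  let inc : {w // Q.map c *ᵥ w = w} → {v // E *ᵥ v = v ∧
      (starMat N).map (Int.cast : ℤ → ZMod (e ^ k)) *ᵥ v = -v} :=
    fun w => ⟨_, hmem w.1 w.2⟩
  have hinc : Function.Injective inc := fun w w' h => Subtype.ext (hinj (Subtype.ext_iff.mp h))
  exact Nat.pow_le_pow_left (Nat.card_le_card_of_injective inc hinc) 2

end Fermat.Agent.Mazur
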