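import Fermat.Agent.Mazur.Conj.StarFun
import Fermat.Agent.Mazur.Conj.StarMat
import Fermat.Agent.HeckeJ0.TorsionModel
import Fermat.Prelude.Def_GaloisRep_ComplexConjugation

/-!
# Complex conjugation and the Hecke algebra on the lattice model of `J₀(N)[n]`
-/

set_option autoImplicit false

noncomputable section

open CongruenceSubgroup AlgebraicCurve ModularCurve ModularCurve.Period
open scoped MatrixGroups ComplexConjugate Matrix

namespace Fermat.Agent.Mazur

open HeckeJ0

local notation "ℚbar" => AlgebraicClosure ℚ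

variable {N : ℕ} [NeZero N]

theorem jEmb_complexConjugation (x : ℚbar) :
    J0Torsion.jEmb (complexConjugation x) = conj (J0Torsion.jEmb x) :=
  complexEmbedding_complexConjugation x

theorem frickeConj_jConjGamma0 (γ : Gamma0 N) :
    frickeConj (jConjGamma0 N γ) = jConjGamma0 N (frickeConj γ) := by
  obtain ⟨c, hc⟩ := dvd_lowerLeft N γ
  refine Subtype.ext (Subtype.ext ?_)
  ext i j
  show (frickeConj (jConjGamma0 N γ) : SL(2, ℤ)).1 i j =
    jConjMat ((frickeConj γ : SL(2, ℤ)) : Matrix (Fin 2) (Fin 2) ℤ) i j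
  fin_cases i <;> fin_cases j <;>
    simp [frickeConj, jConjGamma0_coe, jConjMat, hc, Int.neg_ediv_of_dvd]

/-- Complex conjugation acts on `J₀(N)[n]` as `ψ ↦ -ψ (J · J)`. -/
theorem torsionEquiv_complexConjugation {n : ℕ} [NeZero n]
    (x y : Pic0.torsion ℚbar (modularFunctionFieldBar N) n)
    (hy : (y : JZero N) = complexConjugation • (x : JZero N)) :
    (J0Torsion.torsionEquiv N n y : Additive (Gamma0 N) →+ ZMod n) =
      -charInvolution N ℤ (ZMod n)
        (J0Torsion.torsionEquiv N n x : Additive (Gamma0 N) →+ ZMod n) := by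
  obtain ⟨D, f, hD, hdiv, hf⟩ := J0Torsion.torChar_torsionEquiv x
  set θ := J0Torsion.torsionEquiv N n x
  let g := arithmeticGalois (modularFunctionFieldFull N) complexConjugation
  have hgood : IsGoodHom N (-charInvolution N ℤ (ZMod n)
      (θ : Additive (Gamma0 N) →+ ZMod n)) := fun γ hγ => by
    rw [AddMonoidHom.neg_apply, isGoodHom_charInvolution θ.2 γ hγ, neg_zero]
  let ψ : J0Torsion.goodHoms N (ZMod n) := ⟨_, hgood⟩
  refine congrArg Subtype.val (J0Torsion.torsionEquiv_eq (φ := ψ)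
    ⟨SemilinearAut.degZeroSMulHom g D, g • f, ?_, fun P => ?_, ?_⟩)
  · rw [hy, ← hD]
    rfl
  · rw [SemilinearAut.coe_degZeroSMulHom]
    have h := SemilinearAut.divisor_smul_apply g (D : Divisor ℚbar _) P
    rw [h, hdiv (g⁻¹ • P), ← SemilinearAut.ord_smul g (g⁻¹ • P) f, smul_inv_smul]
  · have hchi : J0Torsion.chiOf ψ = starChar (J0Torsion.chiOf θ) := MonoidHom.ext fun γ => by
      rw [J0Torsion.chiOf_apply]
      show ZMod.stdAddChar (-((θ : Additive (Gamma0 N) →+ ZMod n)
        (Additive.ofMul (jConjGamma0 N γ)))) = conj (J0Torsion.chiOf θ (jConjGamma0 N γ))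
      rw [J0Torsion.chiOf_apply, AddChar.map_neg_eq_inv, Complex.inv_eq_conj]
      exact AddChar.norm_apply _ _
    rw [hchi]
    have hcoe : coeffMap J0Torsion.jEmb
        ((g • f : modularFunctionFieldBar N) : LaurentSeries ℚbar) =
        coeffMap (starRingEnd ℂ) (coeffMap J0Torsion.jEmb (f : LaurentSeries ℚbar)) := by
      rw [coe_arithmeticGalois_smul, coeffMap_coeffMap, coeffMap_coeffMap]
      exact coeffMap_congr (RingHom.ext jEmb_complexConjugation) _
    exact hcoe ▸ HasChar.starConj hf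

variable (N) in
/-- The coordinates of `J₀(N)[n]`. -/
def torsCoords (n : ℕ) [NeZero n] :
    Pic0.torsion ℚbar (modularFunctionFieldBar N) n ≃+ (Fin (rk N) → ZMod n) :=
  (J0Torsion.torsionEquiv N n).trans (twCoordsEquiv n)

theorem torsCoords_apply {n : ℕ} [NeZero n]
    (x : Pic0.torsion ℚbar (modularFunctionFieldBar N) n) :
    torsCoords N n x =
      coords N (frickeTwist (J0Torsion.torsionEquiv N n x : Additive (Gamma0 N) →+ ZMod n)) :=
  rfl

/-- In coordinates complex conjugation is `-S`. -/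
theorem torsCoords_complexConjugation {n : ℕ} [NeZero n]
    (x y : Pic0.torsion ℚbar (modularFunctionFieldBar N) n)
    (hy : (y : JZero N) = complexConjugation • (x : JZero N)) :
    torsCoords N n y =
      -((starMat N).map (Int.cast : ℤ → ZMod n) *ᵥ torsCoords N n x) := by
  rw [torsCoords_apply, torsCoords_apply, torsionEquiv_complexConjugation x y hy, map_neg,
    map_neg, ← coords_charInvolution_ofCoords]
  congr 2
  rw [ofCoords_coords_zmod N (parabolicFull N) n
    (isGoodHom_frickeTwist (J0Torsion.torsionEquiv N n x).2)]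
  refine AddMonoidHom.ext fun γ => ?_
  obtain ⟨γ, rfl⟩ := Additive.ofMul.surjective γ
  exact congrArg (fun δ => (J0Torsion.torsionEquiv N n x : Additive (Gamma0 N) →+ ZMod n)
    (Additive.ofMul δ)) (frickeConj_jConjGamma0 γ).symm

/-- In coordinates every Hecke operator is a matrix in `matHecke N`. -/
theorem exists_matHecke (p k : ℕ) [Fact p.Prime] (t : HeckeAlg) :
    ∃ P ∈ matHecke N, ∀ x y : Pic0.torsion ℚbar (modularFunctionFieldBar N) (p ^ k),
      (y : JZero N) = heckeEvalBar (heckeOperatorsCommuteBar N) t (x : JZero N) →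
      torsCoords N (p ^ k) y =
        P.map (Int.cast : ℤ → ZMod (p ^ k)) *ᵥ torsCoords N (p ^ k) x := by
  induction t using MvPolynomial.induction_on with
  | C a =>
    refine ⟨algebraMap ℤ _ a, Subalgebra.algebraMap_mem _ a, fun x y hy => ?_⟩
    rw [heckeEvalBar_C, Module.End.intCast_apply, ← AddSubgroup.coe_zsmul] at hy
    rw [Subtype.ext hy, map_zsmul,
      show (algebraMap ℤ (Matrix (Fin (rk N)) (Fin (rk N)) ℤ) a).map
        (Int.cast : ℤ → ZMod (p ^ k)) = (a : ZMod (p ^ k)) • 1 from by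
        ext i j
        rw [Matrix.map_apply, Matrix.algebraMap_matrix_apply, Matrix.smul_apply]
        rcases eq_or_ne i j with h | h <;> simp [h, Matrix.one_apply],
      Matrix.smul_mulVec, Matrix.one_mulVec, Int.cast_smul_eq_zsmul]
  | add s u hs hu =>
    obtain ⟨P, hP, hs⟩ := hs
    obtain ⟨Q, hQ, hu⟩ := hu
    refine ⟨P + Q, add_mem hP hQ, fun x y hy => ?_⟩
    rw [map_add, LinearMap.add_apply] at hy
    have hmem : ∀ v : HeckeAlg, heckeEvalBar (heckeOperatorsCommuteBar N) v (x : JZero N) ∈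
        Pic0.torsion ℚbar (modularFunctionFieldBar N) (p ^ k) := fun v => Pic0.mem_torsion.mpr <| by
      rw [← map_zsmul, Pic0.mem_torsion.mp x.2, map_zero]
    have he : y = (⟨_, hmem s⟩ : Pic0.torsion ℚbar (modularFunctionFieldBar N) (p ^ k)) +
        ⟨_, hmem u⟩ := Subtype.ext hy
    rw [he, map_add, hs x ⟨_, hmem s⟩ rfl,
      hu x ⟨_, hmem u⟩ rfl, Matrix.map_add _ (fun a b => Int.cast_add a b), Matrix.add_mulVec]
  | mul_X s ℓ hs =>
    obtain ⟨P, hP, hs⟩ := hs
    refine ⟨P * heckeMatAt N ℓ, mul_mem hP (Algebra.subset_adjoin ⟨ℓ, rfl⟩), fun x y hy => ?_⟩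
    rw [map_mul, show (MvPolynomial.X ℓ : HeckeAlg) = heckeGen ℓ from rfl, heckeEvalBar_heckeGen,
      Module.End.mul_apply] at hy
    have hmem : heckeOperatorBar N ℓ (x : JZero N) ∈
        Pic0.torsion ℚbar (modularFunctionFieldBar N) (p ^ k) := Pic0.mem_torsion.mpr <| by
      rw [← map_zsmul, Pic0.mem_torsion.mp x.2, map_zero]
    rw [hs ⟨_, hmem⟩ y hy, map_intCast_mul, ← Matrix.mulVec_mulVec]
    exact congrArg _ ((torsionHeckeModel N p).e_hecke k ℓ x ⟨_, hmem⟩ rfl)

end Fermat.Agent.Mazur
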