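import Fermat.Agent.Mazur.Conj.ConjAct
import Fermat.Agent.Mazur.Conj.Balance
import Fermat.Agent.Mazur.Inputs
import Fermat.Agent.S20

/-!
# Complex conjugation on idempotent Hecke pieces of `J₀(N)[e^k]`
-/

set_option autoImplicit false

noncomputable section

open CongruenceSubgroup AlgebraicCurve ModularCurve
open scoped MatrixGroups Matrix

namespace Fermat.Agent.Mazur

open HeckeJ0

local notation "ℚbar" => AlgebraicClosure ℚ

variable (N : ℕ) [NeZero N]

theorem rk_le_two_mul_finrank' : rk N ≤ 2 * Module.finrank ℂ (CuspForm (Gamma0 N) 2) :=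
  rk_le_two_mul_finrank (parabolicFull N) (le_of_eq (Fermat.Agent.S20.result N).symm)

/-- Complex conjugation fixes at least a square root of every idempotent Hecke piece of
`J₀(N)[e^k]`. -/
theorem conjBalance : ConjBalance N := by
  unfold ConjBalance
  intro e k he t ht
  have := Fact.mk he
  have : NeZero (e ^ k) := ⟨pow_ne_zero k he.ne_zero⟩
  have hc := heckeOperatorsCommuteBar N
  simp only [heckeModuleBar_smul_def hc] at ht ⊢
  set T := heckeEvalBar hc t
  rcases eq_or_ne k 0 with rfl | hk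
  · have h0 : ∀ x : JZero N, e ^ 0 • x = 0 → x = 0 := fun x hx => by simpa using hx
    have : Subsingleton {x : JZero N // e ^ 0 • x = 0 ∧ T x = x} :=
      ⟨fun a b => Subtype.ext ((h0 _ a.2.1).trans (h0 _ b.2.1).symm)⟩
    have : Subsingleton {x : JZero N // (e ^ 0 • x = 0 ∧ T x = x) ∧ complexConjugation • x = x} :=
      ⟨fun a b => Subtype.ext ((h0 _ a.2.1.1).trans (h0 _ b.2.1.1).symm)⟩
    have hz : (e ^ 0 • (0 : JZero N) = 0 ∧ T 0 = 0) := ⟨smul_zero _, map_zero T⟩
    rw [Nat.card_of_subsingleton (⟨0, hz⟩ : {x : JZero N // e ^ 0 • x = 0 ∧ T x = x}),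
      Nat.card_of_subsingleton (⟨0, hz, smul_zero (A := JZero N) complexConjugation⟩ :
        {x : JZero N // (e ^ 0 • x = 0 ∧ T x = x) ∧ complexConjugation • x = x}), one_pow]
  obtain ⟨P, hP, hPt⟩ := exists_matHecke (N := N) e k t
  set E := P.map (Int.cast : ℤ → ZMod (e ^ k)) with hE
  set S := (starMat N).map (Int.cast : ℤ → ZMod (e ^ k)) with hS
  let A := Pic0.torsion ℚbar (modularFunctionFieldBar N) (e ^ k)
  let θ := torsCoords N (e ^ k)
  have hmem : ∀ x : JZero N, x ∈ A ↔ e ^ k • x = 0 := fun x => by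
    rw [Pic0.mem_torsion, natCast_zsmul]
  have hTmem : ∀ x : A, T (x : JZero N) ∈ A := fun x => (hmem _).mpr <| by
    rw [← map_nsmul, (hmem _).mp x.2, map_zero]
  have hcmem : ∀ x : A, complexConjugation • (x : JZero N) ∈ A := fun x => (hmem _).mpr <| by
    show e ^ k • DistribSMul.toAddMonoidHom (JZero N) complexConjugation (x : JZero N) = 0
    rw [← map_nsmul, (hmem _).mp x.2, map_zero]
  have hTθ : ∀ x : A, θ ⟨_, hTmem x⟩ = E *ᵥ θ x := fun x => hPt x ⟨_, hTmem x⟩ rfl
  have hfix : ∀ x : A, T (x : JZero N) = x ↔ E *ᵥ θ x = θ x := fun x => by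
    rw [← hTθ, EmbeddingLike.apply_eq_iff_eq, Subtype.ext_iff]
  have hcfix : ∀ x : A, complexConjugation • (x : JZero N) = x ↔ S *ᵥ θ x = -θ x := fun x => by
    have h : θ ⟨_, hcmem x⟩ = -(S *ᵥ θ x) := torsCoords_complexConjugation x ⟨_, hcmem x⟩ rfl
    rw [← neg_eq_iff_eq_neg, ← h, EmbeddingLike.apply_eq_iff_eq, Subtype.ext_iff]
  have hidem : E * E = E := Matrix.ext_of_mulVec_single fun i => by
    obtain ⟨x, hx⟩ := θ.surjective (Pi.single i 1)
    rw [← Matrix.mulVec_mulVec, ← hx, ← hTθ, ← hTθ ⟨_, hTmem x⟩]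
    exact congrArg θ (Subtype.ext (ht x ((hmem _).mp x.2)))
  have h1 : Nat.card {x : JZero N // e ^ k • x = 0 ∧ T x = x} =
      Nat.card {v // E *ᵥ v = v} := by
    refine Nat.card_congr (Equiv.trans ?_ ((θ.toEquiv).subtypeEquiv hfix))
    refine ((Equiv.subtypeSubtypeEquivSubtypeInter (fun x : JZero N => x ∈ A)
      (fun x => T x = x)).trans (Equiv.subtypeEquivRight fun x => ?_)).symm
    rw [hmem]
  have h2 : Nat.card {x : JZero N // (e ^ k • x = 0 ∧ T x = x) ∧ complexConjugation • x = x} =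
      Nat.card {v // E *ᵥ v = v ∧ S *ᵥ v = -v} := by
    refine Nat.card_congr (Equiv.trans ?_ ((θ.toEquiv).subtypeEquiv fun x =>
      and_congr (hfix x) (hcfix x)))
    refine ((Equiv.subtypeSubtypeEquivSubtypeInter (fun x : JZero N => x ∈ A)
      (fun x => T x = x ∧ complexConjugation • x = x)).trans
        (Equiv.subtypeEquivRight fun x => ?_)).symm
    rw [hmem, and_assoc]
  rw [h1, h2]
  exact card_fixed_le_sq (rk_le_two_mul_finrank' N) hk hP E hE hidem

end Fermat.Agent.Mazur
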