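import Fermat.Agent.J0Torsion.Twist
import Fermat.Agent.EichlerShimura.StarHecke

/-!
# `F ↦ conj (F (J τ))` on modular functions and on functions with a multiplier
-/

set_option autoImplicit false

noncomputable section

open UpperHalfPlane Filter Topology CongruenceSubgroup
open scoped Manifold MatrixGroups ModularForm ComplexConjugate

namespace Fermat.Agent.Mazur

open ModularCurve ModularCurve.Period EichlerShimura X0Analytic J0Torsion

/-- `τ ↦ conj (F (J τ))`. -/
def starFun (F : ℍ → ℂ) : ℍ → ℂ := fun τ => conj (F (J • τ))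

theorem mdiff_starFun {F : ℍ → ℂ} (hF : MDiff F) : MDiff (starFun F) := by
  have h : starFun F = F ∣[(0 : ℤ)] J := by
    funext τ
    rw [ModularForm.slash_apply]
    simp [starFun]
  rw [h]
  exact hF.slash 0 J

theorem qp_J_smul (h : ℕ) (τ : ℍ) : conj (qp h (J • τ)) = qp h τ := by
  rw [qp, qp, coe_J_smul, Function.Periodic.qParam, Function.Periodic.qParam, ← Complex.exp_conj]
  congr 1
  simp [Complex.conj_ofReal, map_ofNat]

theorem starFun_mul_qp (F : ℍ → ℂ) (h m : ℕ) :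
    starFun F * qp h ^ m = starFun (F * qp h ^ m) :=
  funext fun τ => by simp [starFun, qp_J_smul]

theorem isBounded_starFun {F : ℍ → ℂ} (hF : IsBoundedAtImInfty F) :
    IsBoundedAtImInfty (starFun F) := by
  obtain ⟨C, A, hA⟩ := isBoundedAtImInfty_iff.mp hF
  refine isBoundedAtImInfty_iff.mpr ⟨C, A, fun τ hτ => ?_⟩
  rw [starFun, Complex.norm_conj]
  refine hA _ ?_
  rw [← UpperHalfPlane.coe_im, coe_J_smul]
  simpa using hτ

theorem J_smul_vadd (x : ℝ) (τ : ℍ) : J • (x +ᵥ τ) = -x +ᵥ J • τ :=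
  UpperHalfPlane.ext (by simp [coe_J_smul, UpperHalfPlane.coe_vadd, Complex.conj_ofReal, add_comm])

theorem starFun_mem_perMero {h : ℕ} [NeZero h] {F : ℍ → ℂ} (hF : F ∈ perMero h) :
    starFun F ∈ perMero h := by
  obtain ⟨hd, hp, m, hm⟩ := hF
  refine ⟨mdiff_starFun hd, fun τ => ?_, m, by rw [starFun_mul_qp]; exact isBounded_starFun hm⟩
  show conj (F (J • ((h : ℝ) +ᵥ τ))) = conj (F (J • τ))
  rw [J_smul_vadd, ← hp (-(h : ℝ) +ᵥ J • τ), vadd_vadd, add_neg_cancel, zero_vadd]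

variable {N : ℕ} [NeZero N]

theorem starFun_smul (F : ℍ → ℂ) (g : SL(2, ℤ)) :
    (fun τ : ℍ => starFun F (g • τ)) = starFun fun τ => F (jConjSL g • τ) := by
  funext τ
  simp only [starFun, J_smul_sl_smul]

/-- `starFun` on modular functions. -/
def starMod (a : ↥(modFun N)) : ↥(modFun N) :=
  ⟨starFun (a : ℍ → ℂ), mdiff_starFun a.2.1, fun γ hγ τ => by
      show conj ((a : ℍ → ℂ) (J • γ • τ)) = _
      rw [J_smul_sl_smul, a.2.2.1 _ (jConjSL_mem_Gamma0 hγ)]
      rfl,
    fun g => by rw [starFun_smul]; exact starFun_mem_perMero (a.2.2.2 _)⟩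

theorem starMod_pow (a : ↥(modFun N)) (n : ℕ) : starMod (a ^ n) = starMod a ^ n :=
  Subtype.ext (funext fun τ => by simp [starMod, starFun])

theorem starMod_ne_zero {a : ↥(modFun N)} (ha : a ≠ 0) : starMod a ≠ 0 := fun h => ha <|
  Subtype.ext <| funext fun τ => by
    have := congrFun (congrArg Subtype.val h) (J • τ)
    simpa [starMod, starFun, J_smul_J_smul] using this

theorem qSer_starFun {h : ℕ} [NeZero h] (F : ↥(perMero h)) :
    qSer h ⟨starFun (F : ℍ → ℂ), starFun_mem_perMero F.2⟩ =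
      coeffMap (starRingEnd ℂ) (qSer h F) := by
  obtain ⟨hd, hp, m, hm⟩ := F.2
  have hm' : IsBoundedAtImInfty (starFun (F : ℍ → ℂ) * qp h ^ m) := by
    rw [starFun_mul_qp]; exact isBounded_starFun hm
  ext k
  rw [coeffMap_coeff]
  rcases lt_or_ge k (-(m : ℤ)) with hk | hk
  · rw [qSer_coeff_of_lt _ hm' hk, qSer_coeff_of_lt F hm hk, map_zero]
  · obtain ⟨i, hi⟩ := Int.eq_ofNat_of_zero_le (a := k + m) (by omega)
    rw [show k = (i : ℤ) - m by omega, qSer_coeff F hm, qSer_coeff _ hm']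
    obtain ⟨hsd, hsp, -⟩ := starFun_mem_perMero F.2
    refine qExpansion_coeff_eq_of_hasSum
      (hsd.mul ((mem_holFun).mp (pow_mem (mem_holFun.mpr (qp_mdiff h)) m)))
      (hsp.mul (isPer_qp_pow h m)) (c := fun j =>
        conj ((qExpansion (h : ℝ) ((F : ℍ → ℂ) * qp h ^ m)).coeff j)) (fun τ => ?_) i
    have := Complex.hasSum_conj'.mpr (hasSum_series hd hp hm (J • τ))
    rw [map_mul, map_pow, qp_J_smul] at this
    refine this.congr_fun fun j => ?_
    rw [smul_eq_mul, smul_eq_mul, map_mul, map_pow, qp_J_smul]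

theorem ser_starMod (a : ↥(modFun N)) :
    ser N (starMod a) = coeffMap (starRingEnd ℂ) (ser N a) := by
  rw [ser_apply, ser_apply]
  exact qSer_starFun (toPerOne N a)

/-- The multiplier `γ ↦ conj (χ (J γ J))`. -/
def starChar (χ : Gamma0 N →* ℂ) : Gamma0 N →* ℂ :=
  (starRingEnd ℂ).toMonoidHom.comp (χ.comp (jConjGamma0 N))

theorem starFun_mem_twFun {χ : Gamma0 N →* ℂ} {G : ℍ → ℂ} (hG : G ∈ twFun χ) :
    starFun G ∈ twFun (starChar χ) := by
  refine ⟨mdiff_starFun hG.1, fun γ τ => ?_, fun g => ?_⟩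
  · show conj (G (J • (γ : SL(2, ℤ)) • τ)) = _
    rw [J_smul_sl_smul, ← jConjGamma0_coe, hG.2.1, map_mul]
    rfl
  · obtain ⟨m, hm⟩ := hG.2.2 (jConjSL g)
    exact ⟨m, by rw [starFun_smul, starFun_mul_qp]; exact isBounded_starFun hm⟩

theorem HasChar.starConj {n : ℕ} {f : LaurentSeries ℂ} {χ : Gamma0 N →* ℂ}
    (h : HasChar N n f χ) : HasChar N n (coeffMap (starRingEnd ℂ) f) (starChar χ) := by
  obtain ⟨G, b, a, hG, hG0, hb, hab, heq⟩ := h
  refine ⟨starFun G, starMod b, starMod a, starFun_mem_twFun hG, fun h0 => hG0 ?_,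
    starMod_ne_zero hb, ?_, ?_⟩
  · funext τ
    have := congrFun h0 (J • τ)
    simpa [starFun, J_smul_J_smul] using this
  · funext τ
    show conj ((a : ℍ → ℂ) (J • τ)) = _
    rw [hab]
    simp [starFun]
  · rw [← starMod_pow, ser_starMod, ser_starMod, ← map_mul, heq]

end Fermat.Agent.Mazur
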